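/-
Row S33 (ordinary at `p`), TOP GLUE — algebra (helper409).

Pure linear algebra over a local ring `T` (Mathlib only):

* `exists_basis_range_eq_span`: a nontrivial idempotent endomorphism of a free module of rank 2
  has image spanned by the first vector of a basis.
* `exists_ordinary_line`: let `f₀` be an automorphism of a free module `V` of rank 2 with
  `c₀ := det f₀`, `c₀ - 1` a unit and `(f₀ - c₀)(f₀ - 1) = 0`.  Then `L := range (f₀ - 1)
  = ker (f₀ - c₀)` is spanned by the first vector of a basis of `V`.
-/
import Mathlib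

set_option autoImplicit false
set_option linter.style.haveILetI false

noncomputable section

namespace Fermat.Agent.S33

open IsLocalRing

section Algebra

variable {T : Type} [CommRing T] [IsLocalRing T] {V : Type} [AddCommGroup V] [Module T V]
  [Module.Free T V] [Module.Finite T V]

/-- A nontrivial idempotent endomorphism of a free module of rank 2 over a local ring has image
spanned by the first vector of a basis. -/
theorem exists_basis_range_eq_span (hV : Module.finrank T V = 2) (e : Module.End T V)
    (he : IsIdempotentElem e) (he0 : e ≠ 0) (he1 : e ≠ 1) :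
    ∃ b : Module.Basis (Fin 2) T V, LinearMap.range e = T ∙ b 0 := by
  have hc : IsCompl (LinearMap.range e) (LinearMap.ker e) :=
    LinearMap.IsIdempotentElem.isCompl he
  let φ : (LinearMap.range e × LinearMap.ker e) ≃ₗ[T] V := Submodule.prodEquivOfIsCompl _ _ hc
  haveI hP : Module.Projective T (LinearMap.range e × LinearMap.ker e) :=
    Module.Projective.of_equiv φ.symm
  haveI hP1 : Module.Projective T (LinearMap.range e) :=
    Module.Projective.of_split (LinearMap.inl T _ (LinearMap.ker e)) (LinearMap.fst T _ _)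
      (by ext x; simp)
  haveI hP2 : Module.Projective T (LinearMap.ker e) :=
    Module.Projective.of_split (LinearMap.inr T (LinearMap.range e) _) (LinearMap.snd T _ _)
      (by ext x; simp)
  haveI hF1 : Module.Finite T (LinearMap.range e) :=
    Module.Finite.of_surjective (e.rangeRestrict) (LinearMap.surjective_rangeRestrict e)
  haveI hF2 : Module.Finite T (LinearMap.ker e) := by
    have hk : LinearMap.ker e = LinearMap.range (1 - e) :=
      LinearMap.IsIdempotentElem.ker_eq_range_one_sub he
    rw [hk]
    exact Module.Finite.of_surjective ((1 - e).rangeRestrict)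
      (LinearMap.surjective_rangeRestrict _)
  haveI hFr1 : Module.Free T (LinearMap.range e) := Module.free_of_flat_of_isLocalRing
  haveI hFr2 : Module.Free T (LinearMap.ker e) := Module.free_of_flat_of_isLocalRing
  have hsum : Module.finrank T (LinearMap.range e) + Module.finrank T (LinearMap.ker e) = 2 := by
    rw [← Module.finrank_prod, φ.finrank_eq, hV]
  have h1 : Module.finrank T (LinearMap.range e) ≠ 0 := by
    intro h
    haveI : Subsingleton (LinearMap.range e) :=
      (Module.finrank_eq_zero_iff_of_free (R := T) (M := LinearMap.range e)).mp h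
    apply he0
    ext v
    have : (⟨e v, LinearMap.mem_range_self e v⟩ : LinearMap.range e) = 0 :=
      Subsingleton.elim _ _
    simpa using congrArg Subtype.val this
  have h2 : Module.finrank T (LinearMap.ker e) ≠ 0 := by
    intro h
    haveI : Subsingleton (LinearMap.ker e) :=
      (Module.finrank_eq_zero_iff_of_free (R := T) (M := LinearMap.ker e)).mp h
    apply he1
    ext v
    have hmem : v - e v ∈ LinearMap.ker e := by
      rw [LinearMap.mem_ker, map_sub]
      have : e (e v) = e v := by
        have := congrArg (fun f : Module.End T V => f v) he.eq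
        simpa using this
      rw [this, sub_self]
    have : (⟨v - e v, hmem⟩ : LinearMap.ker e) = 0 := Subsingleton.elim _ _
    have h3 : v - e v = 0 := by simpa using congrArg Subtype.val this
    simpa using (sub_eq_zero.mp h3).symm
  have hr1 : Module.finrank T (LinearMap.range e) = 1 := by omega
  have hr2 : Module.finrank T (LinearMap.ker e) = 1 := by omega
  let b1 : Module.Basis (Fin 1) T (LinearMap.range e) := Module.finBasisOfFinrankEq T _ hr1
  let b2 : Module.Basis (Fin 1) T (LinearMap.ker e) := Module.finBasisOfFinrankEq T _ hr2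
  let b : Module.Basis (Fin 2) T V :=
    ((b1.prod b2).map φ).reindex (finSumFinEquiv (m := 1) (n := 1))
  have hb0 : b 0 = (b1 0 : V) := by
    have h0 : (finSumFinEquiv (m := 1) (n := 1)).symm 0 = Sum.inl 0 := by
      rw [Equiv.symm_apply_eq]; rfl
    simp only [b, Module.Basis.reindex_apply, h0, Module.Basis.map_apply]
    simp [φ, Submodule.coe_prodEquivOfIsCompl']
  refine ⟨b, ?_⟩
  rw [hb0]
  apply le_antisymm
  · intro v hv
    have hrep := b1.sum_repr ⟨v, hv⟩
    rw [Fin.sum_univ_one] at hrep
    rw [Submodule.mem_span_singleton]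
    refine ⟨b1.repr ⟨v, hv⟩ 0, ?_⟩
    have := congrArg Subtype.val hrep
    simpa using this
  · rw [Submodule.span_singleton_le_iff_mem]
    exact (b1 0).2


/-- Let `f₀` be an endomorphism of a free module `V` of rank 2 over a local ring with
`det f₀ = c₀` a unit, `c₀ - 1` a unit and `(f₀ - c₀)(f₀ - 1) = 0`.  Then
`range (f₀ - 1) = ker (f₀ - c₀)` is spanned by the first vector of a basis of `V`. -/
theorem exists_ordinary_line (hV : Module.finrank T V = 2) (f₀ : Module.End T V) (c₀ : T)
    (hdet : LinearMap.det f₀ = c₀) (hc₀ : IsUnit c₀) (hu : IsUnit (c₀ - 1))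
    (h : (f₀ - c₀ • 1) * (f₀ - 1) = 0) :
    ∃ b : Module.Basis (Fin 2) T V,
      T ∙ b 0 = LinearMap.range (f₀ - 1) ∧ T ∙ b 0 = LinearMap.ker (f₀ - c₀ • 1) := by
  obtain ⟨u, hu'⟩ := hu
  have huu : (↑u⁻¹ : T) * (c₀ - 1) = 1 := by rw [← hu', Units.inv_mul]
  have hsq : (f₀ - 1) * (f₀ - 1) = (c₀ - 1) • (f₀ - 1) := by
    have e1 : (f₀ - 1) * (f₀ - 1) = (f₀ - c₀ • 1) * (f₀ - 1) + (c₀ - 1) • (f₀ - 1) := by
      rw [sub_smul, one_smul, sub_mul (f₀) (c₀ • (1 : Module.End T V)), smul_mul_assoc, one_mul,
        sub_mul f₀ 1 (f₀ - 1), one_mul]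
      abel
    rw [e1, h, zero_add]
  set e : Module.End T V := (↑u⁻¹ : T) • (f₀ - 1) with he
  have hidem : IsIdempotentElem e := by
    show e * e = e
    rw [he, smul_mul_smul_comm, hsq, smul_smul, mul_assoc, huu, mul_one]
  have hf₀ : f₀ - 1 = (c₀ - 1) • e := by
    rw [he, smul_smul, mul_comm, huu, one_smul]
  have h1e : 1 - e = (-(↑u⁻¹ : T)) • (f₀ - c₀ • 1) := by
    have e2 : f₀ - c₀ • 1 = (f₀ - 1) - (c₀ - 1) • (1 : Module.End T V) := by
      rw [sub_smul, one_smul]; abel
    rw [e2, smul_sub, smul_smul, neg_mul, huu, neg_smul, neg_smul, one_smul, ← he]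
    abel
  have he0 : e ≠ 0 := by
    intro h0
    have h1 : f₀ = 1 := by
      have := hf₀
      rw [h0, smul_zero, sub_eq_zero] at this
      exact this
    have h2 : c₀ = 1 := by rw [← hdet, h1, map_one]
    have h3 : (u : T) = 0 := by rw [hu', h2, sub_self]
    exact u.ne_zero h3
  have he1 : e ≠ 1 := by
    intro h1
    have h2 : f₀ = c₀ • 1 := by
      have := hf₀
      rw [h1, sub_smul, one_smul] at this
      have h3 : f₀ = c₀ • (1 : Module.End T V) - 1 + 1 := by rw [← this]; abel
      rw [h3]; abel
    have h3 : c₀ = c₀ ^ 2 := by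
      have := hdet
      rw [h2, LinearMap.det_smul, hV, map_one, mul_one] at this
      exact this.symm
    have h4 : c₀ * (c₀ - 1) = 0 := by rw [mul_sub, mul_one, ← sq, ← h3, sub_self]
    have h5 : (u : T) = 0 := by
      rw [hu']
      exact (hc₀.mul_right_eq_zero).mp h4
    exact u.ne_zero h5
  obtain ⟨b, hb⟩ := exists_basis_range_eq_span hV e hidem he0 he1
  have hr : LinearMap.range e = LinearMap.range (f₀ - 1) := by
    apply le_antisymm
    · rintro _ ⟨v, rfl⟩
      refine ⟨(↑u⁻¹ : T) • v, ?_⟩
      rw [he, LinearMap.smul_apply, map_smul]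
    · rintro _ ⟨v, rfl⟩
      refine ⟨(c₀ - 1) • v, ?_⟩
      show e ((c₀ - 1) • v) = (f₀ - 1) v
      rw [he, LinearMap.smul_apply, map_smul, smul_smul, huu, one_smul]
  have hk : LinearMap.range e = LinearMap.ker (f₀ - c₀ • 1) := by
    rw [LinearMap.IsIdempotentElem.range_eq_ker_one_sub hidem, h1e]
    ext v
    rw [LinearMap.mem_ker, LinearMap.mem_ker, LinearMap.smul_apply]
    constructor
    · intro hv
      have h6 := congrArg (fun w => (-(c₀ - 1)) • w) hv
      simp only [smul_smul, smul_zero] at h6
      rw [neg_mul_neg, mul_comm, huu, one_smul] at h6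
      exact h6
    · intro hv
      rw [hv, smul_zero]
  exact ⟨b, by rw [← hb, hr], by rw [← hb, hk]⟩

end Algebra

end Fermat.Agent.S33
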