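/-
Row S33 (ordinary at `p`, `p ‖ N`), TOP GLUE — interface (helper409).

Goal: the frozen statement S33 (`H.ρ.IsOrdinaryAt p` for a Hecke–Galois datum of level `N`,
`p ‖ N`, `p` odd, residual representation ordinary at `p`) from

* the pieces REL, EMB, RED of row S32 (`Fermat/Agent/S32/Spec.lean`, all proved on main) and
  `S59.G4.PointsStatement` (proved on main),
* ONE new piece: `OrdEigenStatement` (ORD-EIG) below.

ORD-EIG: at every local `p`-adic point `P` of the coefficient ring of the datum there is an adic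
eigenmodule `E` (Tate eigenmodule of `J₀(N)`) on which inertia at `p` acts "ordinarily":
for `σ₀, σ` in the inertia group and `τ` in the decomposition group of a place over `p`, and `c`
the value of the `p`-adic cyclotomic character at `σ₀`,

  `(σ₀ - c) (σ - 1) = 0`   and   `(σ₀ - c) τ (σ₀ - 1) = 0`   on `E.M`.

`Top.lean` proves `s33_of_pieces : OrdEigen → REL → EMB → RED → POINTS → S33`.
Route of ORD-EIG: `coord/S33-helper409.md` on `origin/helper409`.
Only sorry-free definitions in this file.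
-/
import Fermat.Agent.S32.Spec
import Fermat.Prelude.Def_GaloisRep_LocalConditions

set_option autoImplicit false

noncomputable section

namespace Fermat.Agent.S33

open IsLocalRing Fermat.Agent.S31

/-- `c` is the value of the `p`-adic cyclotomic character at `σ` (in a `p`-adically separated
ring this determines `c`): whenever `σ` acts on the `p ^ n`-th roots of unity as the `a`-th
power, `c ≡ a mod p ^ n`.  (Same shape as `GaloisRepAdic.DetIsCyclotomic`.) -/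
def IsCycVal (p : ℕ) {A : Type} [CommRing A] (σ : GQ) (c : A) : Prop :=
  ∀ (n a : ℕ), (∀ μ : Qb, μ ^ p ^ n = 1 → σ μ = μ ^ a) →
    c - (a : A) ∈ Ideal.span {((p ^ n : ℕ) : A)}

/-- The **ordinary identities** at `p` for a Galois action on a module `M` (rank-free form of
`GaloisRepAdic.IsOrdinaryAt`): for every place `P ∣ p`, `σ₀, σ ∈ I_P`, `τ ∈ D_P` and `c` the
cyclotomic value of `σ₀`:  `(σ₀ - c)(σ - 1) = 0` and `(σ₀ - c) τ (σ₀ - 1) = 0`. -/
def IsOrdMod (p : ℕ) {A M : Type} [CommRing A] [AddCommGroup M] [Module A M]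
    (ρ : GQ →* Module.End A M) : Prop :=
  ∀ P : ValuationSubring Qb, P.LiesOverPrime p →
    ∀ σ₀ ∈ P.inertiaSubgroupIn ℚ, ∀ c : A, IsCycVal p σ₀ c →
      (∀ σ ∈ P.inertiaSubgroupIn ℚ, (ρ σ₀ - c • 1) * (ρ σ - 1) = 0) ∧
      (∀ τ ∈ P.decompositionSubgroup ℚ, (ρ σ₀ - c • 1) * ρ τ * (ρ σ₀ - 1) = 0)

/-- **ORD-EIG.**  Let `H` be a Hecke–Galois datum of level `N`, `p ‖ N`, `p` odd, whose residual
representation is ordinary at `p`.  Then at every local `p`-adic point `P` of its coefficient ring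
there is an adic eigenmodule of `P.χ ∘ π` satisfying the ordinary identities at `p`. -/
def OrdEigenStatement : Prop :=
  ∀ (p : ℕ) [Fact p.Prime] (_hp2 : p ≠ 2) (N : ℕ) [NeZero N] (S : Finset ℕ)
    (_hN : p ∣ N ∧ ¬ p ^ 2 ∣ N) (_hNS : ∀ q : ℕ, q.Prime → q ∣ N → q ∈ S)
    (𝒪 : Type) [CommRing 𝒪] [IsDomain 𝒪] [IsDiscreteValuationRing 𝒪]
    [IsAdicComplete (maximalIdeal 𝒪) 𝒪] [Finite (ResidueField 𝒪)] [CharZero 𝒪]
    (_hp𝒪 : (p : 𝒪) ∈ maximalIdeal 𝒪)
    (θ : CuspForm.heckeAlgebra N 2 (↑S : Set ℕ) →+* ResidueField 𝒪)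
    (T : Type) [CommRing T] [IsLocalRing T] [IsNoetherianRing T]
    [IsAdicComplete (maximalIdeal T) T] [Algebra 𝒪 T] [IsLocalHom (algebraMap 𝒪 T)]
    [Module.Finite 𝒪 T] [Module.Free 𝒪 T]
    (H : CuspForm.HeckeGaloisRepDatum N (↑S : Set ℕ) 𝒪 θ T)
    (_hres : (GaloisRepAdic.ofResidualGaloisRep H.ρ.residual).IsOrdinaryAt p)
    (P : PadicPoint p T) (_hloc : IsLocalHom P.χ),
    ∃ E : Fermat.Agent.S30.H990.AdicEigenModule p N S P.O (P.χ.comp H.π), IsOrdMod p E.ρ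

/-- The frozen statement S33, as a `Prop`. -/
def S33Statement : Prop :=
  ∀ {p : ℕ} {N : ℕ} [NeZero N] {S : Finset ℕ}
    {𝒪 : Type} [CommRing 𝒪] [IsDomain 𝒪] [IsDiscreteValuationRing 𝒪]
    [IsAdicComplete (maximalIdeal 𝒪) 𝒪]
    {θ : CuspForm.heckeAlgebra N 2 (↑S : Set ℕ) →+* ResidueField 𝒪}
    {T : Type} [CommRing T] [IsLocalRing T] [IsNoetherianRing T]
    [IsAdicComplete (maximalIdeal T) T] [Algebra 𝒪 T] [IsLocalHom (algebraMap 𝒪 T)]
    [Module.Finite 𝒪 T] [Module.Free 𝒪 T]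
    [Finite (ResidueField 𝒪)] [CharZero 𝒪],
    p.Prime → p ≠ 2 → (p : 𝒪) ∈ maximalIdeal 𝒪 → (p ∣ N ∧ ¬ p ^ 2 ∣ N) →
    (∀ q : ℕ, q.Prime → q ∣ N → q ∈ S) →
    ∀ H : CuspForm.HeckeGaloisRepDatum N (↑S : Set ℕ) 𝒪 θ T,
      (GaloisRepAdic.ofResidualGaloisRep H.ρ.residual).IsOrdinaryAt p → H.ρ.IsOrdinaryAt p

end Fermat.Agent.S33
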