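/-
Row S33 (ordinary at `p`, `p ‖ N`) — frozen decomposition of ORD-EIG (helper409).

    S33  ⇐  OrdEigenStatement                                   (`Top.lean`, proved)
    OrdEigenStatement  ⇐  GeoEigenStatement                      (ALG:   pure algebra + BLR + REL)
    GeoEigenStatement  ⇐  KeyStatement                           (EIG-B: Tate eigenmodule, level `N`)
    KeyStatement       ⇐  OrdFilStatement + OldAugStatement      (KEY:   dévissage by `α, β`)
    OldAugStatement    ⇐  S19 (Hopf models, `p ∤ M'`) + CE       (OLD)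
    OrdFilStatement    =  the wall at `p` : (DEG) + (S1⁺) + (S2) (NEW:   RIBET row 38 leaves)

Vocabulary (definitions of helper270, `origin/helper270:Fermat/Agent/S33/H270/KeyCore.lean`):
`iAug I Y = ⟨σ • y - y : σ ∈ I, y ∈ Y⟩`, `torsSub J m = J[m]`,
`InSPlus I p x : p • x = 0 ∧ ∃ n, x ∈ iAug I J[p ^ n]`   (the set `𝒮⁺`).

Route and proofs on paper: `coord/S33-helper409.md` on `origin/helper409`.
Only sorry-free definitions in this file.
-/
import Fermat.Agent.S33.Spec
import Fermat.Prelude.Def_ModularCurve_ArithmeticGalois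

set_option autoImplicit false

noncomputable section

namespace Fermat.Agent.S33

open IsLocalRing Fermat.Agent.S31

/-! ### Abstract vocabulary -/

section Abstract

variable {G : Type*} [Group G] {J : Type*} [AddCommGroup J] [DistribMulAction G J]

/-- The augmentation subgroup `⟨σ • y - y : σ ∈ I, y ∈ Y⟩`. -/
def iAug (I : Subgroup G) (Y : AddSubgroup J) : AddSubgroup J :=
  AddSubgroup.closure {z | ∃ σ ∈ I, ∃ y ∈ Y, z = σ • y - y}

/-- The `m`-torsion subgroup. -/
def torsSub (J : Type*) [AddCommGroup J] (m : ℕ) : AddSubgroup J :=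
  (nsmulAddMonoidHom (α := J) m).ker

/-- `𝒮⁺ = ⋃ₙ (I_aug J[pⁿ] ∩ J[p])` as a predicate. -/
def InSPlus (I : Subgroup G) (p : ℕ) (x : J) : Prop :=
  p • x = 0 ∧ ∃ n : ℕ, x ∈ iAug I (torsSub J (p ^ n))

/-- **(K)** for `(G, I, J)`: every `G`-stable subgroup of `𝒮⁺` is generated by its
augmentation (its `I`-coinvariants vanish). -/
def KeyAt (I : Subgroup G) (p : ℕ) (J : Type*) [AddCommGroup J] [DistribMulAction G J] : Prop :=
  ∀ Y : AddSubgroup J, (∀ (σ : G), ∀ y ∈ Y, σ • y ∈ Y) → (∀ y ∈ Y, InSPlus I p y) →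
    Y ≤ iAug I Y

end Abstract

/-! ### The augmentation submodule of a linear action -/

/-- The submodule of `M` generated by the `ρ σ m - m`, `σ ∈ I`. -/
def augSpan {A M : Type} [CommRing A] [AddCommGroup M] [Module A M]
    (ρ : GQ →* Module.End A M) (I : Subgroup GQ) : Submodule A M :=
  Submodule.span A {x | ∃ σ ∈ I, ∃ m : M, x = ρ σ m - m}

/-- **GEO** for a linear action over a local ring: if the augmentation submodule contains `a M`
for some `a ≠ 0`, then it generates `M` modulo the maximal ideal. -/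
def GeoAt {A M : Type} [CommRing A] [IsLocalRing A] [AddCommGroup M] [Module A M]
    (ρ : GQ →* Module.End A M) (I : Subgroup GQ) : Prop :=
  ∀ a : A, a ≠ 0 → (∀ m : M, a • m ∈ augSpan ρ I) →
    augSpan ρ I ⊔ (maximalIdeal A) • (⊤ : Submodule A M) = ⊤

/-! ### The frozen leaves -/

/-- **GEO-EIG** (engine, no datum, no residual hypothesis).  For `p ‖ N`, `p` odd, every
eigencharacter with values in a complete DVR has an adic eigenmodule satisfying GEO at every
place over `p`. -/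
def GeoEigenStatement : Prop :=
  ∀ (p : ℕ) [Fact p.Prime] (_hp2 : p ≠ 2) (N : ℕ) [NeZero N] (S : Finset ℕ)
    (_hN : p ∣ N ∧ ¬ p ^ 2 ∣ N) (_hNS : ∀ q : ℕ, q.Prime → q ∣ N → q ∈ S)
    (𝒪' : Type) [CommRing 𝒪'] [IsDomain 𝒪'] [IsDiscreteValuationRing 𝒪']
    [IsAdicComplete (maximalIdeal 𝒪') 𝒪'] [Finite (ResidueField 𝒪')]
    [CharZero 𝒪'] (_hp𝒪' : (p : 𝒪') ∈ maximalIdeal 𝒪')
    (χ : CuspForm.heckeAlgebra N 2 (↑S : Set ℕ) →+* 𝒪'),
    ∃ E : Fermat.Agent.S30.H990.AdicEigenModule p N S 𝒪' χ,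
      ∀ P : ValuationSubring Qb, P.LiesOverPrime p → GeoAt E.ρ (P.inertiaSubgroupIn ℚ)

/-- **KEY** = (K) for `J₀(N)`, `p ‖ N`, `p` odd, at every place over `p`. -/
def KeyStatement : Prop :=
  ∀ (p N : ℕ) [NeZero N], p.Prime → p ≠ 2 → p ∣ N → ¬ p ^ 2 ∣ N →
    ∀ P : ValuationSubring Qb, P.LiesOverPrime p →
      KeyAt (P.inertiaSubgroupIn ℚ) p (ModularCurve.JZero N)

/-- **OLD** = (K) for `J₀(M')`, `p ∤ M'`, `p` odd (connected–étale sequence of the Hopf models
of `J₀(M')[p ^ n]`; S19 + CE). -/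
def OldAugStatement : Prop :=
  ∀ (p M' : ℕ) [NeZero M'], p.Prime → p ≠ 2 → ¬ p ∣ M' →
    ∀ P : ValuationSubring Qb, P.LiesOverPrime p →
      KeyAt (P.inertiaSubgroupIn ℚ) p (ModularCurve.JZero M')

/-- **NEW** = the wall at `p`: degeneracy maps `α, β : J₀(pM') → J₀(M')` (additive,
Galois-equivariant) and, at every place `A ∣ p`, a set `𝒮` with
(S1⁺) `𝒮⁺ ⊆ 𝒮`, (S2) inertia acts through the cyclotomic character on the new part of `𝒮`.
((S2) is clause (S2) of `Ribet.H944.Wall.AtPFiltrationStatement`, verbatim.) -/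
def OrdFilStatement : Prop :=
  ∀ (p M' : ℕ) [NeZero M'] [NeZero (p * M')], p.Prime → p ≠ 2 → ¬ p ∣ M' →
    ∃ (α β : ModularCurve.JZero (p * M') →+ ModularCurve.JZero M'),
      (∀ (σ : GQ) (x : ModularCurve.JZero (p * M')), α (σ • x) = σ • α x) ∧
      (∀ (σ : GQ) (x : ModularCurve.JZero (p * M')), β (σ • x) = σ • β x) ∧
      ∀ A : ValuationSubring Qb, A.LiesOverPrime p →
        ∃ 𝒮 : Set (ModularCurve.JZero (p * M')),
          (∀ x : ModularCurve.JZero (p * M'), InSPlus (A.inertiaSubgroupIn ℚ) p x → x ∈ 𝒮) ∧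
          (∀ x ∈ 𝒮, p • x = 0 → α x = 0 → β x = 0 →
            ∀ σ ∈ A.inertiaSubgroupIn ℚ, ∀ c : ℕ,
              (∀ ζ : Qb, ζ ^ p = 1 → σ ζ = ζ ^ c) → σ • x = c • x)

end Fermat.Agent.S33
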