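/-
Row S33 — augmentation calculus on the frozen vocabulary of `Spec2.lean` (helper409).

The lemmas `iAug_mono` … `le_iAug_of_devissage` are those of helper270
(`origin/helper270:Fermat/Agent/S33/H270/KeyCore.lean`), restated for the frozen definitions.
New: `keyAt_pi` — (K) for `J` implies (K) for the finite powers `Fin r → J`.
-/
import Fermat.Agent.S33.Spec2

set_option autoImplicit false

namespace Fermat.Agent.S33

variable {G : Type*} [Group G] {J J' : Type*} [AddCommGroup J] [AddCommGroup J']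
  [DistribMulAction G J] [DistribMulAction G J']

theorem mem_torsSub {m : ℕ} {x : J} : x ∈ torsSub J m ↔ m • x = 0 := by
  unfold torsSub
  rw [AddMonoidHom.mem_ker]
  rfl

theorem smul_sub_mem_iAug {I : Subgroup G} {Y : AddSubgroup J} {σ : G} (hσ : σ ∈ I) {y : J}
    (hy : y ∈ Y) : σ • y - y ∈ iAug I Y :=
  AddSubgroup.subset_closure ⟨σ, hσ, y, hy, rfl⟩

theorem iAug_mono {I : Subgroup G} {Y Z : AddSubgroup J} (h : Y ≤ Z) : iAug I Y ≤ iAug I Z := by
  unfold iAug
  apply AddSubgroup.closure_mono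
  rintro z ⟨σ, hσ, y, hy, rfl⟩
  exact ⟨σ, hσ, y, h hy, rfl⟩

/-- `I_aug Y ≤ Y` when `Y` is `I`-stable. -/
theorem iAug_le_self {I : Subgroup G} {Y : AddSubgroup J}
    (hY : ∀ σ ∈ I, ∀ y ∈ Y, σ • y ∈ Y) : iAug I Y ≤ Y := by
  unfold iAug
  rw [AddSubgroup.closure_le]
  rintro z ⟨σ, hσ, y, hy, rfl⟩
  exact Y.sub_mem (hY σ hσ y hy) hy

/-- An `I`-equivariant additive map sends `I_aug Y` into `I_aug Y'` if it sends `Y` to `Y'`. -/
theorem map_mem_iAug {I : Subgroup G} (f : J →+ J')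
    (hf : ∀ σ ∈ I, ∀ x : J, f (σ • x) = σ • f x) {Y : AddSubgroup J} {Y' : AddSubgroup J'}
    (hYY' : ∀ y ∈ Y, f y ∈ Y') {x : J} (hx : x ∈ iAug I Y) : f x ∈ iAug I Y' := by
  unfold iAug at hx
  induction hx using AddSubgroup.closure_induction with
  | mem z hz =>
    obtain ⟨σ, hσ, y, hy, rfl⟩ := hz
    rw [map_sub, hf σ hσ]
    exact smul_sub_mem_iAug hσ (hYY' y hy)
  | zero => rw [map_zero]; exact AddSubgroup.zero_mem _
  | add a b _ _ ha hb => rw [map_add]; exact AddSubgroup.add_mem _ ha hb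
  | neg a _ ha => rw [map_neg]; exact AddSubgroup.neg_mem _ ha

/-- Every element of `I_aug (f Y)` is the image of an element of `I_aug Y`. -/
theorem exists_mem_iAug_of_mem_iAug_map {I : Subgroup G} (f : J →+ J')
    (hf : ∀ σ ∈ I, ∀ x : J, f (σ • x) = σ • f x) {Y : AddSubgroup J} {z : J'}
    (hz : z ∈ iAug I (Y.map f)) : ∃ x ∈ iAug I Y, f x = z := by
  unfold iAug at hz
  induction hz using AddSubgroup.closure_induction with
  | mem w hw =>
    obtain ⟨σ, hσ, y', hy', rfl⟩ := hw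
    obtain ⟨y, hy, rfl⟩ := AddSubgroup.mem_map.mp hy'
    exact ⟨σ • y - y, smul_sub_mem_iAug hσ hy, by rw [map_sub, hf σ hσ]⟩
  | zero => exact ⟨0, AddSubgroup.zero_mem _, map_zero f⟩
  | add a b _ _ ha hb =>
    obtain ⟨x, hx, rfl⟩ := ha
    obtain ⟨y, hy, rfl⟩ := hb
    exact ⟨x + y, AddSubgroup.add_mem _ hx hy, map_add f x y⟩
  | neg a _ ha =>
    obtain ⟨x, hx, rfl⟩ := ha
    exact ⟨-x, AddSubgroup.neg_mem _ hx, map_neg f x⟩

/-- **Dévissage** (right exactness of `I`-coinvariants, subgroup form). -/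
theorem le_iAug_of_devissage {I : Subgroup G} (f : J →+ J')
    (hf : ∀ σ ∈ I, ∀ x : J, f (σ • x) = σ • f x) {A B : AddSubgroup J}
    (hB : ∀ σ ∈ I, ∀ y ∈ B, σ • y ∈ B)
    (hAB : ∀ b ∈ B, f b = 0 → b ∈ A) (hAle : A ≤ B) (hA : A ≤ iAug I A)
    (hC : B.map f ≤ iAug I (B.map f)) : B ≤ iAug I B := by
  intro b hb
  obtain ⟨z, hz, hzb⟩ :=
    exists_mem_iAug_of_mem_iAug_map f hf (hC (AddSubgroup.mem_map_of_mem f hb))
  have hzB : z ∈ B := iAug_le_self hB hz
  have hbz : b - z ∈ A := hAB _ (B.sub_mem hb hzB) (by rw [map_sub, hzb, sub_self])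
  have h1 : b - z ∈ iAug I B := iAug_mono hAle (hA hbz)
  have h2 := AddSubgroup.add_mem _ h1 hz
  rwa [sub_add_cancel] at h2

/-- **(K) for finite powers.**  If every `G`-stable subgroup of `𝒮⁺(J)` is generated by its
augmentation, then so is every `G`-stable subgroup of `Fin r → J` with coordinates in `𝒮⁺(J)`. -/
theorem keyAt_pi {I : Subgroup G} {p : ℕ} (hKey : KeyAt I p J) :
    ∀ (r : ℕ) (Y : AddSubgroup (Fin r → J)), (∀ (σ : G), ∀ y ∈ Y, σ • y ∈ Y) →
      (∀ y ∈ Y, ∀ i, InSPlus I p (y i)) → Y ≤ iAug I Y := by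
  intro r
  induction r with
  | zero =>
    intro Y _ _ y _
    have : y = 0 := Subsingleton.elim _ _
    rw [this]
    exact AddSubgroup.zero_mem _
  | succ r ih =>
    intro Y hYG hY
    -- first coordinate
    let f : (Fin (r + 1) → J) →+ J := Pi.evalAddMonoidHom (fun _ => J) 0
    have hf : ∀ σ ∈ I, ∀ x : Fin (r + 1) → J, f (σ • x) = σ • f x := fun _ _ _ => rfl
    -- the tail
    let g : (Fin (r + 1) → J) →+ (Fin r → J) :=
      { toFun := fun y i => y i.succ
        map_zero' := rfl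
        map_add' := fun _ _ => rfl }
    -- extension by zero
    let ι : (Fin r → J) →+ (Fin (r + 1) → J) :=
      { toFun := fun z => Fin.cons (α := fun _ => J) 0 z
        map_zero' := by
          funext i
          refine Fin.cases ?_ (fun i => ?_) i <;> simp
        map_add' := fun z z' => by
          funext i
          refine Fin.cases ?_ (fun i => ?_) i <;> simp }
    have hι : ∀ σ ∈ I, ∀ z : Fin r → J, ι (σ • z) = σ • ι z := by
      intro σ _ z
      funext i
      refine Fin.cases ?_ (fun i => ?_) i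
      · show (0 : J) = σ • (0 : J)
        rw [smul_zero]
      · rfl
    have hιg : ∀ y : Fin (r + 1) → J, f y = 0 → ι (g y) = y := by
      intro y hy
      funext i
      refine Fin.cases ?_ (fun i => ?_) i
      · exact hy.symm
      · rfl
    set A : AddSubgroup (Fin (r + 1) → J) := Y ⊓ f.ker with hA
    refine le_iAug_of_devissage (A := A) f hf (fun σ _ y hy => hYG σ y hy)
      (fun b hb hb0 => AddSubgroup.mem_inf.mpr ⟨hb, AddMonoidHom.mem_ker.mpr hb0⟩)
      inf_le_left ?_ ?_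
    · -- the kernel part, by induction
      have hA' : A.map g ≤ iAug I (A.map g) := by
        refine ih (A.map g) ?_ ?_
        · rintro σ _ ⟨y, hy, rfl⟩
          have hy' : y ∈ Y ∧ f y = 0 := ⟨hy.1, AddMonoidHom.mem_ker.mp hy.2⟩
          refine ⟨σ • y, ⟨hYG σ y hy'.1, AddMonoidHom.mem_ker.mpr ?_⟩, rfl⟩
          show σ • f y = 0
          rw [hy'.2, smul_zero]
        · rintro _ ⟨y, hy, rfl⟩ i
          exact hY y hy.1 i.succ
      intro y hy
      have hy0 : f y = 0 := AddMonoidHom.mem_ker.mp hy.2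
      have h1 : g y ∈ iAug I (A.map g) := hA' (AddSubgroup.mem_map_of_mem g hy)
      have h2 : ι (g y) ∈ iAug I A := by
        refine map_mem_iAug ι hι ?_ h1
        rintro _ ⟨y', hy', rfl⟩
        rw [hιg y' (AddMonoidHom.mem_ker.mp hy'.2)]
        exact hy'
      rwa [hιg y hy0] at h2
    · -- the image in the first coordinate
      refine hKey _ ?_ ?_
      · rintro σ _ ⟨y, hy, rfl⟩
        exact ⟨σ • y, hYG σ y hy, rfl⟩
      · rintro _ ⟨y, hy, rfl⟩
        exact hY y hy 0

end Fermat.Agent.S33
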