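/-
Row S33 (ordinary at `p`, `p ‖ N`), TOP GLUE — assembly (helper409).

`s33_of_pieces` : the frozen statement S33 from ORD-EIG (`Spec.lean`) and the pieces REL, EMB, RED
of row S32 and `S59.G4.PointsStatement` (all four proved on main).

Proof.  `T` is reduced (RED), so it has a strict finite family of local `p`-adic points `P_i`
(POINTS).  At each point: an eigenmodule `E_i` with the ordinary identities (ORD-EIG) on which
every `g` satisfies the characteristic polynomial of `H.ρ g` (REL), hence a strict semilinear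
equivariant map `φ_i : V → E_i.M` (EMB; `T[G] → End V` is onto, `S31.H202`).  Strictness of the
points and of the `φ_i` and Krull's intersection theorem give: `φ_i v = 0` for all `i` implies
`v = 0`.  So the ordinary identities hold on `V`, with `c = det ρ(σ₀)` (the determinant is
cyclotomic, `S59.H540`).  Choose `σ₀` in inertia acting non-trivially on `μ_p` (`S56.H656`):
`c₀ - 1` is a unit and `L := range (ρ σ₀ - 1) = ker (ρ σ₀ - c₀)` is the line (`Alg.lean`).
-/
import Fermat.Agent.S33.Spec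
import Fermat.Agent.S33.Alg
import Fermat.Agent.S31.H202.TraceRigid
import Fermat.Agent.S59.H540.DetCyc
import Fermat.Agent.S56.H656.LocOrdP

set_option autoImplicit false
set_option linter.style.haveILetI false

noncomputable section

namespace Fermat.Agent.S33

open IsLocalRing Fermat.Agent.S31 Fermat.Agent.S59

section Aux

variable {T : Type} [CommRing T]

/-- Coordinates of an element of `J V`. -/
theorem repr_mem_of_mem_smul_top_s33 {V : Type} [AddCommGroup V] [Module T V] {ι : Type}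
    (b : Module.Basis ι T V) (J : Ideal T) (v : V) (h : v ∈ J • (⊤ : Submodule T V)) (i : ι) :
    b.repr v i ∈ J := by
  refine Submodule.smul_induction_on h ?_ ?_
  · intro r hr w _
    rw [map_smul, Finsupp.smul_apply, smul_eq_mul]
    exact Ideal.mul_mem_right _ _ hr
  · intro x y hx hy
    rw [map_add, Finsupp.add_apply]
    exact Ideal.add_mem _ hx hy

/-- The image of a cyclotomic value under a ring homomorphism is a cyclotomic value. -/
theorem IsCycVal.map {p : ℕ} {A : Type} [CommRing A] {σ : GQ} {c : T} (h : IsCycVal p σ c)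
    (ψ : T →+* A) : IsCycVal p σ (ψ c) := by
  intro n a ha
  have h1 := h n a ha
  rw [Ideal.mem_span_singleton] at h1 ⊢
  obtain ⟨d, hd⟩ := h1
  refine ⟨ψ d, ?_⟩
  rw [← map_natCast ψ a, ← map_sub, hd, map_mul, map_natCast]

end Aux

section Asm

open Fermat.Agent.S30.H990 (AdicEigenModule)

set_option maxHeartbeats 1600000 in
/-- **S33 from the pieces.** -/
theorem s33_of_pieces (hEig : OrdEigenStatement) (hRel : Fermat.Agent.S32.RelStatement)
    (hEmb : Fermat.Agent.S32.EmbedStatement) (hRed : Fermat.Agent.S32.RedStatement)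
    (hPts : G4.PointsStatement) : S33Statement := by
  intro p N _ S 𝒪 _ _ _ _ θ T _ _ _ _ _ _ _ _ _ _ hp hp2 hp𝒪 hN hNS H hres
  have : Fact p.Prime := ⟨hp⟩
  have hpS : p ∈ S := hNS p hp hN.1
  have : IsReduced T := hRed N S hNS 𝒪 θ T H
  obtain ⟨F, hstrict, hloc⟩ := hPts p 𝒪 hp𝒪 T
  have hspan := H202.span_range_rho_eq_top H.ρ H.residual_absIrr
  -- `p` lies in the maximal ideal of `T`
  have hpT : (p : T) ∈ maximalIdeal T := by
    rw [mem_maximalIdeal, mem_nonunits_iff]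
    intro hu
    have h1 : (p : T) = algebraMap 𝒪 T (p : 𝒪) := by rw [map_natCast]
    rw [h1] at hu
    have h2 : IsUnit (p : 𝒪) := isUnit_of_map_unit (algebraMap 𝒪 T) _ hu
    exact (mem_nonunits_iff.mp ((mem_maximalIdeal _).mp hp𝒪)) h2
  have hdetc : H.ρ.DetIsCyclotomic p :=
    Fermat.Agent.S59.H540.heckeGaloisRepDatum_detIsCyclotomic S H p hpT
  have hcyc : ∀ σ : GQ, IsCycVal p σ (LinearMap.det (H.ρ.ρ σ)) :=
    fun σ n a ha => hdetc.2 n σ a ha
  -- the data at the points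
  have hpt : ∀ i : Fin F.length, ∃ (E : AdicEigenModule p N S (F.get i).O
      ((F.get i).χ.comp H.π)) (φ : H.ρ.V →+ E.M) (k : ℕ), IsOrdMod p E.ρ ∧
      (∀ (t : T) (v : H.ρ.V), φ (t • v) = (F.get i).χ t • φ v) ∧
      (∀ (g : GQ) (v : H.ρ.V), φ (H.ρ.ρ g v) = E.ρ g (φ v)) ∧
      ∀ (m : ℕ) (v : H.ρ.V),
        φ v ∈ (maximalIdeal (F.get i).O ^ (m + k)) • (⊤ : Submodule (F.get i).O E.M) →
          v ∈ (Ideal.comap (F.get i).χ (maximalIdeal (F.get i).O ^ m)) •
            (⊤ : Submodule T H.ρ.V) := by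
    intro i
    have hmem : F.get i ∈ F := List.get_mem F i
    obtain ⟨E, hE⟩ := hEig p hp2 N S hN hNS 𝒪 hp𝒪 θ T H hres (F.get i) (hloc _ hmem)
    have hrel := hRel p N S hpS hNS 𝒪 θ T H (F.get i) (hloc _ hmem) E
    have h2 : (2 : (F.get i).O) ≠ 0 := two_ne_zero
    obtain ⟨φ, hsemi, heq, k, hk⟩ := hEmb T H.ρ hspan (F.get i).O h2 (F.get i).χ E.M E.ρ hrel
    exact ⟨E, φ, k, hE, hsemi, heq, hk⟩
  choose E φ k hord hsemi heq hstr using hpt
  -- joint injectivity of the `φ i`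
  have hinj : ∀ v : H.ρ.V, (∀ i, φ i v = 0) → v = 0 := by
    intro v hv
    let b := Module.Free.chooseBasis T H.ρ.V
    have hzero : ∀ c, b.repr v c = 0 := by
      intro c
      have hmem : ∀ n, b.repr v c ∈ maximalIdeal T ^ n := by
        intro n
        obtain ⟨n', hn'⟩ := hstrict n
        refine hn' _ fun P hP => ?_
        obtain ⟨i, rfl⟩ := List.mem_iff_get.mp hP
        have h1 : φ i v ∈ (maximalIdeal (F.get i).O ^ (n' + k i)) •
            (⊤ : Submodule (F.get i).O (E i).M) := by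
          rw [hv i]; exact zero_mem _
        exact repr_mem_of_mem_smul_top_s33 b _ v (hstr i n' v h1) c
      have hbot : (⨅ n, maximalIdeal T ^ n) = ⊥ :=
        Ideal.iInf_pow_eq_bot_of_isLocalRing (maximalIdeal T) Ideal.IsPrime.ne_top'
      have : b.repr v c ∈ (⨅ n, maximalIdeal T ^ n) := by
        rw [Ideal.mem_iInf]; exact hmem
      rw [hbot] at this
      exact this
    have : b.repr v = 0 := Finsupp.ext hzero
    exact b.repr.map_eq_zero_iff.mp this
  -- transfer of the action of `ρ σ - c`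
  have htr : ∀ (i : Fin F.length) (g : GQ) (c : T) (v : H.ρ.V),
      φ i ((H.ρ.ρ g - c • 1) v) = (E i).ρ g (φ i v) - (F.get i).χ c • φ i v := by
    intro i g c v
    calc φ i ((H.ρ.ρ g - c • 1) v) = φ i (H.ρ.ρ g v - c • v) := rfl
      _ = φ i (H.ρ.ρ g v) - φ i (c • v) := map_sub (φ i) _ _
      _ = (E i).ρ g (φ i v) - (F.get i).χ c • φ i v :=
          congrArg₂ (· - ·) (heq i g v) (hsemi i c v)
  have htr1 : ∀ (i : Fin F.length) (g : GQ) (v : H.ρ.V),
      φ i ((H.ρ.ρ g - 1) v) = (E i).ρ g (φ i v) - φ i v := by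
    intro i g v
    calc φ i ((H.ρ.ρ g - 1) v) = φ i (H.ρ.ρ g v - v) := rfl
      _ = φ i (H.ρ.ρ g v) - φ i v := map_sub (φ i) _ _
      _ = (E i).ρ g (φ i v) - φ i v := congrArg (· - φ i v) (heq i g v)
  -- the ordinary identities on `V`
  have hO2 : ∀ P : ValuationSubring Qb, P.LiesOverPrime p →
      ∀ σ₀ ∈ P.inertiaSubgroupIn ℚ, ∀ σ ∈ P.inertiaSubgroupIn ℚ,
        (H.ρ.ρ σ₀ - LinearMap.det (H.ρ.ρ σ₀) • 1) * (H.ρ.ρ σ - 1) = 0 := by
    intro P hP σ₀ hσ₀ σ hσ
    refine LinearMap.ext fun v => ?_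
    rw [LinearMap.zero_apply]
    apply hinj
    intro i
    have key := congrArg (fun f : Module.End (F.get i).O (E i).M => f (φ i v))
      ((hord i P hP σ₀ hσ₀ _ ((hcyc σ₀).map (F.get i).χ)).1 σ hσ)
    have e1 : ((H.ρ.ρ σ₀ - LinearMap.det (H.ρ.ρ σ₀) • 1) * (H.ρ.ρ σ - 1)) v
        = (H.ρ.ρ σ₀ - LinearMap.det (H.ρ.ρ σ₀) • 1) ((H.ρ.ρ σ - 1) v) := rfl
    rw [e1, htr i σ₀ _ _, htr1 i σ v]
    exact key
  have hO3 : ∀ P : ValuationSubring Qb, P.LiesOverPrime p →
      ∀ σ₀ ∈ P.inertiaSubgroupIn ℚ, ∀ τ ∈ P.decompositionSubgroup ℚ,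
        (H.ρ.ρ σ₀ - LinearMap.det (H.ρ.ρ σ₀) • 1) * H.ρ.ρ τ * (H.ρ.ρ σ₀ - 1) = 0 := by
    intro P hP σ₀ hσ₀ τ hτ
    refine LinearMap.ext fun v => ?_
    rw [LinearMap.zero_apply]
    apply hinj
    intro i
    have key := congrArg (fun f : Module.End (F.get i).O (E i).M => f (φ i v))
      ((hord i P hP σ₀ hσ₀ _ ((hcyc σ₀).map (F.get i).χ)).2 τ hτ)
    have e1 : ((H.ρ.ρ σ₀ - LinearMap.det (H.ρ.ρ σ₀) • 1) * H.ρ.ρ τ * (H.ρ.ρ σ₀ - 1)) v
        = (H.ρ.ρ σ₀ - LinearMap.det (H.ρ.ρ σ₀) • 1) (H.ρ.ρ τ ((H.ρ.ρ σ₀ - 1) v)) := rfl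
    rw [e1, htr i σ₀ _ _, heq i τ _, htr1 i σ₀ v]
    exact key
  -- the line
  intro P hP
  obtain ⟨σ₀, hσ₀, a, ha, ha1⟩ :=
    Fermat.Agent.S56.H656.exists_inertia_isCycExp_ne_one hp hp2 (ZMod p) P hP
  set f₀ : Module.End T H.ρ.V := H.ρ.ρ σ₀ with hf₀
  set c₀ : T := LinearMap.det f₀ with hc₀
  -- `c₀` is a unit
  have hc₀u : IsUnit c₀ := by
    refine IsUnit.of_mul_eq_one (LinearMap.det (H.ρ.ρ σ₀⁻¹)) ?_
    rw [hc₀, hf₀, ← map_mul, ← map_mul, mul_inv_cancel, map_one, map_one]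
  -- `c₀ - 1` is a unit
  have hu : IsUnit (c₀ - 1) := by
    have h1 : c₀ - (a : T) ∈ maximalIdeal T := by
      have h2 := hcyc σ₀ 1 a (fun μ hμ => ha μ (by rwa [pow_one] at hμ))
      rw [pow_one] at h2
      exact (Ideal.span_le.mpr (Set.singleton_subset_iff.mpr hpT)) h2
    have h3 : IsUnit ((a : T) - 1) := by
      -- `a - 1` is prime to `p`
      have hcop : IsCoprime ((a : ℤ) - 1) (p : ℤ) := by
        rw [isCoprime_comm]
        refine (Prime.coprime_iff_not_dvd (Nat.prime_iff_prime_int.mp hp)).mpr ?_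
        intro hdvd
        apply ha1
        have h4 : (((a : ℤ) - 1 : ℤ) : ZMod p) = 0 :=
          (ZMod.intCast_zmod_eq_zero_iff_dvd _ p).mpr hdvd
        push_cast at h4
        exact sub_eq_zero.mp h4
      obtain ⟨x, y, hxy⟩ := hcop
      have h5 : (x : T) * ((a : T) - 1) + (y : T) * (p : T) = 1 := by
        have := congrArg (Int.cast : ℤ → T) hxy
        push_cast at this
        exact this
      by_contra hnu
      have h6 : (a : T) - 1 ∈ maximalIdeal T := (mem_maximalIdeal _).mpr hnu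
      have h7 : (1 : T) ∈ maximalIdeal T := by
        rw [← h5]
        exact Ideal.add_mem _ (Ideal.mul_mem_left _ _ h6) (Ideal.mul_mem_left _ _ hpT)
      exact (Ideal.ne_top_iff_one _).mp (maximalIdeal.isMaximal T).ne_top h7
    by_contra hnu
    have h6 : c₀ - 1 ∈ maximalIdeal T := (mem_maximalIdeal _).mpr hnu
    have h7 : (a : T) - 1 ∈ maximalIdeal T := by
      have : (a : T) - 1 = (c₀ - 1) - (c₀ - (a : T)) := by ring
      rw [this]
      exact Ideal.sub_mem _ h6 h1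
    exact ((mem_maximalIdeal _).mp h7) h3
  obtain ⟨b, hb1, hb2⟩ := exists_ordinary_line H.ρ.finrank_eq f₀ c₀ rfl hc₀u hu
    (hO2 P hP σ₀ hσ₀ σ₀ hσ₀)
  refine ⟨T ∙ b 0, ⟨b, rfl⟩, ?_, ?_⟩
  · intro τ hτ v hv
    rw [hb1] at hv
    obtain ⟨w, rfl⟩ := hv
    rw [hb2, LinearMap.mem_ker]
    have := congrArg (fun f : Module.End T H.ρ.V => f w) (hO3 P hP σ₀ hσ₀ τ hτ)
    simpa [Module.End.mul_apply] using this
  · intro σ hσ v
    rw [hb2, LinearMap.mem_ker]
    have := congrArg (fun f : Module.End T H.ρ.V => f v) (hO2 P hP σ₀ hσ₀ σ hσ)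
    simpa [Module.End.mul_apply] using this

end Asm

end Fermat.Agent.S33
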