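/-
Row S33 (ordinary at `p`, `p ‖ N`) — conditional chain (helper409).

`result_of_ordEigen` : the frozen statement S33 (exact binders of `Fermat/Templates/S33.lean.txt`)
from the single open input `OrdEigenStatement` (`Spec.lean`); REL, EMB, RED, POINTS are the
theorems on main.  `Fermat/Agent/S33.lean` is then
`theorem result ... := Fermat.Agent.S33.result_of_ordEigen <proof of OrdEigenStatement> hp ...`.
-/
import Fermat.Agent.S33.Top
import Fermat.Agent.S32.H692.Rel
import Fermat.Agent.S32.H152.Emb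
import Fermat.Agent.S32.H185.Red
import Fermat.Agent.S59.G4.H109.Points

set_option autoImplicit false

namespace Fermat.Agent.S33

variable {p : ℕ} {N : ℕ} [NeZero N] {S : Finset ℕ}
  {𝒪 : Type} [CommRing 𝒪] [IsDomain 𝒪] [IsDiscreteValuationRing 𝒪]
  [IsAdicComplete (IsLocalRing.maximalIdeal 𝒪) 𝒪]
  {θ : CuspForm.heckeAlgebra N 2 (↑S : Set ℕ) →+* IsLocalRing.ResidueField 𝒪}
  {T : Type} [CommRing T] [IsLocalRing T] [IsNoetherianRing T]
  [IsAdicComplete (IsLocalRing.maximalIdeal T) T] [Algebra 𝒪 T] [IsLocalHom (algebraMap 𝒪 T)]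
  [Module.Finite 𝒪 T] [Module.Free 𝒪 T]

/-- S33 from ORD-EIG alone. -/
theorem s33_of_ordEigen (hEig : OrdEigenStatement) : S33Statement :=
  s33_of_pieces hEig Fermat.Agent.S32.H692.rel Fermat.Agent.S32.H152.embedStatement
    Fermat.Agent.S32.H185.red Fermat.Agent.S59.G4.H109.points

/-- The frozen statement S33 (binders of the template) from ORD-EIG. -/
theorem result_of_ordEigen (hEig : OrdEigenStatement)
    [Finite (IsLocalRing.ResidueField 𝒪)] [CharZero 𝒪]
    (hp : p.Prime) (hp2 : p ≠ 2) (hp𝒪 : (p : 𝒪) ∈ IsLocalRing.maximalIdeal 𝒪)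
    (hN : p ∣ N ∧ ¬ p ^ 2 ∣ N)
    (hNS : ∀ q : ℕ, q.Prime → q ∣ N → q ∈ S)
    (H : CuspForm.HeckeGaloisRepDatum N (↑S : Set ℕ) 𝒪 θ T)
    (hres : (GaloisRepAdic.ofResidualGaloisRep H.ρ.residual).IsOrdinaryAt p) :
    H.ρ.IsOrdinaryAt p :=
  s33_of_ordEigen hEig hp hp2 hp𝒪 hN hNS H hres

end Fermat.Agent.S33
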