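/-
Row S33 — piece EIG-B (helper409): `geoEigenStatement_of_key : KeyStatement → GeoEigenStatement`.

The adic eigenmodule of row S30 (Tate eigenmodule `M` of `X = Hom_ℤ(𝒪, J)`, `J = J₀(N)(ℚ̄)`,
`S30/H529/HomTate.lean`) satisfies GEO at `I = I_P` as soon as (K) holds for `(G_ℚ, I, J)`:

if `p ^ c M ≤ A := augSpan`, evaluate the `c`-th component at representatives `o_i` of
`𝒪 / p ^ (c + 1)`: `e : M → Fin r → J`, equivariant, with kernel `p ^ (c + 1) M`.
`Y := e (p ^ c M)` is `G_ℚ`-stable with coordinates in `𝒮⁺`, so `Y = I_aug Y` (`keyAt_pi`);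
hence `p ^ c m - p ^ c a' ∈ p ^ (c + 1) M` with `a' ∈ A`, i.e. `m ∈ A + p M`.

Template: `Fermat/Agent/S32/EigChain.lean` (helper32).
-/
import Fermat.Agent.S33.AugCore
import Fermat.Agent.S30.H529.HomTate
import Fermat.Agent.S30.H330.AdicChain
import Fermat.Prelude.Def_ModularCurve_HeckeModule

set_option autoImplicit false
set_option linter.style.haveILetI false

noncomputable section

namespace Fermat.Agent.S33

open IsLocalRing Fermat.Agent.S30 Fermat.Agent.S31

/-! ### Representatives modulo a nonzero element of a DVR with finite residue field -/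

section Reps

variable {O : Type} [CommRing O] [IsDomain O] [IsDiscreteValuationRing O]
  [Finite (ResidueField O)]

theorem exists_reps_mod_s33 {x : O} (hx : x ≠ 0) :
    ∃ (r : ℕ) (o : Fin r → O), ∀ b : O, ∃ i : Fin r, ∃ d : O, b = o i + x * d := by
  obtain ⟨n, hn⟩ := H529.exists_pow_maximalIdeal_le_span hx
  have h1 : Finite (O ⧸ maximalIdeal O ^ n) := by
    have : Finite (O ⧸ maximalIdeal O) := (inferInstance : Finite (ResidueField O))
    exact Ideal.finite_quotient_pow (IsNoetherian.noetherian _) n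
  have h2 : Finite (O ⧸ Ideal.span {x}) :=
    Finite.of_surjective (Ideal.Quotient.factor hn) (Ideal.Quotient.factor_surjective hn)
  let e := Finite.equivFin (O ⧸ Ideal.span {x})
  refine ⟨Nat.card (O ⧸ Ideal.span {x}),
    fun i => Function.surjInv Ideal.Quotient.mk_surjective (e.symm i), fun b => ?_⟩
  refine ⟨e (Ideal.Quotient.mk _ b), ?_⟩
  have h3 : Ideal.Quotient.mk (Ideal.span {x})
      (Function.surjInv Ideal.Quotient.mk_surjective (e.symm (e (Ideal.Quotient.mk _ b)))) =
      Ideal.Quotient.mk _ b :=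
    (Function.surjInv_eq Ideal.Quotient.mk_surjective _).trans (e.symm_apply_apply _)
  have h4 : b - Function.surjInv Ideal.Quotient.mk_surjective
      (e.symm (e (Ideal.Quotient.mk (Ideal.span {x}) b))) ∈ Ideal.span {x} := by
    rw [← Ideal.Quotient.eq_zero_iff_mem, map_sub, h3, sub_self]
  obtain ⟨d, hd⟩ := Ideal.mem_span_singleton'.mp h4
  exact ⟨d, by rw [mul_comm, hd]; ring⟩

end Reps

/-! ### GEO for the Tate eigenmodule of `Hom_ℤ(𝒪, J)` -/

section GeoHom

variable (p : ℕ)
variable (O : Type) [CommRing O] [IsDomain O] [IsDiscreteValuationRing O]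
  [Finite (ResidueField O)] [CharZero O]
variable (J : Type) [AddCommGroup J] [DistribMulAction GQ J]
variable {ι : Type} (t : ι → J →+ J) (a : ι → O)

/-- **The Tate eigenmodule of `Hom_ℤ(𝒪, J)` satisfies GEO at `I`** if (K) holds for `(I, J)`. -/
theorem homEigen_geoAt [Fact p.Prime] (hpO : (p : O) ∈ maximalIdeal O)
    (hρ : ∀ (σ : GQ) (i : ι) (h : H529.PreHom O J),
      H529.preHomRep O J σ (H529.PreHom.post (t i) h)
        = H529.PreHom.post (t i) (H529.preHomRep O J σ h))
    (I : Subgroup GQ) (hKey : KeyAt I p J) :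
    GeoAt (H529.tateRep (ϖ := (p : O)) (t := fun i => H529.PreHom.post (t i)) (a := a)
      (H529.preHomRep O J) hρ) I := by
  intro a₀ ha₀ hall
  have hp0 : (p : O) ≠ 0 := by
    exact_mod_cast (Fact.out : p.Prime).ne_zero
  -- abbreviations
  set ρ := H529.tateRep (ϖ := (p : O)) (t := fun i => H529.PreHom.post (t i)) (a := a)
      (H529.preHomRep O J) hρ with hρdef
  -- `p ^ c M ≤ A`
  obtain ⟨c, d, hcd⟩ := H529.exists_dvd_pow_of_mem_maximalIdeal hpO ha₀
  have hpc : ∀ m : ↥(H529.tateEigen (p : O) (fun i => H529.PreHom.post (t i)) a),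
      (p : O) ^ c • m ∈ augSpan ρ I := by
    intro m
    rw [hcd, mul_comm, mul_smul]
    exact Submodule.smul_mem _ _ (hall m)
  obtain ⟨r, o, ho⟩ := exists_reps_mod_s33 (pow_ne_zero (c + 1) hp0)
  -- evaluation of the `c`-th component at the representatives
  let e : ↥(H529.tateEigen (p : O) (fun i => H529.PreHom.post (t i)) a) →+ (Fin r → J) :=
    { toFun := fun v i => H529.PreHom.toHom ((v : ℕ → H529.PreHom O J) c) (o i)
      map_zero' := by
        funext i
        rfl
      map_add' := by
        intro v w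
        funext i
        rfl }
  have he : ∀ v i, e v i = H529.PreHom.toHom ((v : ℕ → H529.PreHom O J) c) (o i) :=
    fun _ _ => rfl
  have heq : ∀ (σ : GQ) v, e (ρ σ v) = σ • e v := by
    intro σ v
    funext i
    rfl
  -- the kernel of `e`
  have hker : ∀ v, e v = 0 → ∃ w : ↥(H529.tateEigen (p : O)
      (fun i => H529.PreHom.post (t i)) a), v = (p : O) ^ (c + 1) • w := by
    intro v hv
    have hvi : ∀ i, H529.PreHom.toHom ((v : ℕ → H529.PreHom O J) c) (o i) = 0 := by
      intro i
      rw [← he, hv]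
      rfl
    have h0 : (v : ℕ → H529.PreHom O J) c = 0 := by
      apply H529.PreHom.ext
      intro x
      obtain ⟨i, d', hd'⟩ := ho x
      have h1 : H529.PreHom.toHom ((v : ℕ → H529.PreHom O J) c) ((p : O) ^ (c + 1) * d') = 0 := by
        rw [← H529.PreHom.smul_apply, H529.tate_pow_succ_smul v.2 c]
        rfl
      rw [hd', map_add, hvi i, h1, add_zero]
      rfl
    have hlt : ∀ m, m < c + 1 → (v : ℕ → H529.PreHom O J) m = 0 := by
      intro m hm
      obtain ⟨k, rfl⟩ : ∃ k, c = m + k := ⟨c - m, by omega⟩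
      rw [← H529.tate_pow_smul v.2 k m, h0, smul_zero]
    obtain ⟨w, hw, hvw⟩ := H529.tate_exists_eq_pow_smul v.2 (c + 1) hlt
    refine ⟨⟨w, hw⟩, ?_⟩
    apply Subtype.ext
    rw [hvw]
    rfl
  -- values of the `c`-th component are killed by `p ^ (c + 1)`
  have hval : ∀ (v : ↥(H529.tateEigen (p : O) (fun i => H529.PreHom.post (t i)) a)) (x : O),
      H529.PreHom.toHom ((v : ℕ → H529.PreHom O J) c) x ∈ torsSub J (p ^ (c + 1)) := by
    intro v x
    rw [mem_torsSub, ← H529.PreHom.natCast_pow_smul_apply, H529.tate_pow_succ_smul v.2 c]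
    rfl
  -- elements of `A` have `c`-th component with values in `I_aug J[p ^ (c + 1)]`
  have haug : ∀ v : ↥(H529.tateEigen (p : O) (fun i => H529.PreHom.post (t i)) a),
      v ∈ augSpan ρ I → ∀ x : O,
        H529.PreHom.toHom ((v : ℕ → H529.PreHom O J) c) x
          ∈ iAug I (torsSub J (p ^ (c + 1))) := by
    intro v hv
    unfold augSpan at hv
    induction hv using Submodule.span_induction with
    | mem z hz =>
      obtain ⟨σ, hσ, m, rfl⟩ := hz
      intro x
      exact smul_sub_mem_iAug hσ (hval m x)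
    | zero =>
      intro x
      exact AddSubgroup.zero_mem _
    | add z w _ _ hz hw =>
      intro x
      exact AddSubgroup.add_mem _ (hz x) (hw x)
    | smul b z _ hz =>
      intro x
      exact hz (b * x)
  -- the subgroup `Y = e (p ^ c M)`
  let φ : ↥(H529.tateEigen (p : O) (fun i => H529.PreHom.post (t i)) a) →+ (Fin r → J) :=
    e.comp (DistribSMul.toAddMonoidHom _ ((p : O) ^ c))
  have hφ : ∀ v, φ v = e ((p : O) ^ c • v) := fun _ => rfl
  have hφeq : ∀ (σ : GQ) v, φ (ρ σ v) = σ • φ v := by
    intro σ v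
    rw [hφ, hφ, ← map_smul, heq]
  have hYG : ∀ (σ : GQ), ∀ y ∈ φ.range, σ • y ∈ φ.range := by
    rintro σ _ ⟨v, rfl⟩
    exact ⟨ρ σ v, hφeq σ v⟩
  have hYS : ∀ y ∈ φ.range, ∀ i, InSPlus I p (y i) := by
    rintro _ ⟨v, rfl⟩ i
    refine ⟨?_, c + 1, ?_⟩
    · rw [hφ, he, ← H529.PreHom.natCast_smul_apply]
      have h1 : (p : O) • (((p : O) ^ c • v : ↥(H529.tateEigen (p : O)
          (fun i => H529.PreHom.post (t i)) a)) : ℕ → H529.PreHom O J) c
          = (p : O) ^ (c + 1) • (v : ℕ → H529.PreHom O J) c := by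
        rw [pow_succ', mul_smul]
        rfl
      rw [h1, H529.tate_pow_succ_smul v.2 c]
      rfl
    · rw [hφ, he]
      exact haug _ (hpc v) (o i)
  have hYkey : φ.range ≤ iAug I φ.range := keyAt_pi hKey r φ.range hYG hYS
  -- lifting the augmentation of `Y`
  have hlift : ∀ y ∈ iAug I φ.range, ∃ v ∈ augSpan ρ I, φ v = y := by
    intro y hy
    unfold iAug at hy
    induction hy using AddSubgroup.closure_induction with
    | mem z hz =>
      obtain ⟨σ, hσ, y', ⟨v', rfl⟩, rfl⟩ := hz
      refine ⟨ρ σ v' - v', Submodule.subset_span ⟨σ, hσ, v', rfl⟩, ?_⟩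
      rw [map_sub, hφeq]
    | zero => exact ⟨0, Submodule.zero_mem _, map_zero φ⟩
    | add z w _ _ hz hw =>
      obtain ⟨v, hv, rfl⟩ := hz
      obtain ⟨v', hv', rfl⟩ := hw
      exact ⟨v + v', Submodule.add_mem _ hv hv', map_add φ v v'⟩
    | neg z _ hz =>
      obtain ⟨v, hv, rfl⟩ := hz
      exact ⟨-v, Submodule.neg_mem _ hv, map_neg φ v⟩
  -- conclusion
  rw [eq_top_iff]
  intro m _
  obtain ⟨v, hv, hvm⟩ := hlift (φ m) (hYkey ⟨m, rfl⟩)
  have h0 : e ((p : O) ^ c • (m - v)) = 0 := by
    rw [← hφ, map_sub, hvm, sub_self]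
  obtain ⟨w, hw⟩ := hker _ h0
  have h1 : m - v = (p : O) • w := by
    have h2 : (p : O) ^ c • (m - v - (p : O) • w) = 0 := by
      rw [smul_sub, hw, pow_succ, mul_smul, sub_self]
    have h3 : (m - v - (p : O) • w : ↥(H529.tateEigen (p : O)
        (fun i => H529.PreHom.post (t i)) a)) = 0 := by
      apply Subtype.ext
      funext n
      have h4 := H529.tate_pow_smul (m - v - (p : O) • w).2 c n
      have h5 := congrFun (congrArg Subtype.val h2) (n + c)
      rw [← h4]
      exact h5
    exact sub_eq_zero.mp h3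
  have h6 : m = v + (p : O) • w := by
    rw [← h1]; abel
  rw [h6]
  exact Submodule.add_mem_sup hv (Submodule.smul_mem_smul hpO Submodule.mem_top)

end GeoHom

/-! ### The eigenmodule attached to an eigen-homomorphism `Frac 𝒪 / 𝒪 → J`, with GEO -/

section MainHom

/-- `S30.H529.adicModule_of_torsion` (piece 1 of the adic module layer of row S30) with the
additional conclusion GEO at every subgroup `I` for which (K) holds.
(Copy of `S32.exists_flat_homEigenmodule`, helper32, with the last conclusion replaced.) -/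
theorem exists_geo_homEigenmodule
    {p : ℕ} (hp : p.Prime)
    {O : Type} [CommRing O] [IsDomain O] [IsDiscreteValuationRing O]
    [IsAdicComplete (IsLocalRing.maximalIdeal O) O] [Finite (IsLocalRing.ResidueField O)]
    [CharZero O] (hpO : (p : O) ∈ IsLocalRing.maximalIdeal O)
    {J : Type} [AddCommGroup J] [DistribMulAction GQ J]
    (hsm : ∀ x : J, ∃ L : IntermediateField ℚ (AlgebraicClosure ℚ), FiniteDimensional ℚ L ∧
      ∀ σ : GQ, (∀ y ∈ L, σ y = y) → σ • x = x)
    (hfin : {x : J | p • x = 0}.Finite)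
    {ι : Type} (t : ι → J →+ J) (ht : ∀ i (σ : GQ) (x : J), σ • t i x = t i (σ • x))
    (a : ι → O)
    (f : FractionRing O →+ J) (hf0 : ∀ r : O, f (algebraMap O (FractionRing O) r) = 0)
    (hf : f ≠ 0)
    (hfe : ∀ i x, t i (f x) = f (algebraMap O (FractionRing O) (a i) * x)) :
    ∃ (M : Type) (_ : AddCommGroup M) (_ : Module O M) (_ : Module.Free O M)
      (_ : Module.Finite O M) (ρ : GQ →* Module.End O M),
      Nontrivial M ∧ GaloisActionIsAdicContinuous O ρ ∧
      (∀ σ : GQ, (∀ x : J, (∃ n : ℕ, p ^ n • x = 0) → σ • x = x) → ρ σ = 1) ∧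
      (∀ (i : ι) (n : ℕ) (σ : GQ),
        (∀ x : J, (∃ k : ℕ, p ^ k • x = 0) → σ • σ • x - t i (σ • x) + n • x = 0) →
        ρ σ * ρ σ - a i • ρ σ + (n : O) • (1 : Module.End O M) = 0) ∧
      ∀ I : Subgroup GQ, KeyAt I p J → GeoAt ρ I := by
  have : Fact p.Prime := ⟨hp⟩
  have hϖ0 : (p : O) ≠ 0 := by exact_mod_cast hp.ne_zero
  have hpL : algebraMap O (FractionRing O) (p : O) ≠ 0 := by
    intro h
    exact hϖ0 ((IsFractionRing.injective O (FractionRing O)) (by rw [h, map_zero]))
  -- operators
  set t' : ι → H529.PreHom O J →ₗ[O] H529.PreHom O J := fun i => H529.PreHom.post (t i) with ht'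
  have hρ : ∀ (σ : GQ) (i : ι) (h : H529.PreHom O J),
      H529.preHomRep O J σ (t' i h) = t' i (H529.preHomRep O J σ h) := by
    intro σ i h
    apply H529.PreHom.ext
    intro x
    simp only [ht', H529.preHomRep_apply, H529.PreHom.post_apply]
    exact ht i σ _
  -- finiteness
  have hX : ∃ Y : Submodule O (H529.PreHom O J), Y.FG ∧
      ∀ h : H529.PreHom O J, (p : O) • h = 0 → h ∈ Y := by
    have hfinX := H529.preHom_torsion_finite (O := O) (J := J) p hϖ0 hfin
    exact ⟨Submodule.span O {h : H529.PreHom O J | (p : O) • h = 0},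
      Submodule.fg_span hfinX, fun h hh => Submodule.subset_span hh⟩
  have hfree := H529.tateEigen_free (t := t') (a := a) hpO hϖ0 hX
  have hfinite := H529.tateEigen_finite (t := t') (a := a) hpO hϖ0 hX
  -- torsion values
  have hval : ∀ (k : ℕ) (h : H529.PreHom O J), (p : O) ^ k • h = 0 →
      ∀ x : O, p ^ k • H529.PreHom.toHom h x = 0 := by
    intro k h hh x
    rw [← H529.PreHom.natCast_pow_smul_apply, hh]
    rfl
  refine ⟨H529.tateEigen (p : O) t' a, inferInstance, inferInstance, hfree, hfinite,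
    H529.tateRep (H529.preHomRep O J) hρ, ?_, ?_, ?_, ?_,
    fun I hKey => homEigen_geoAt p O J t a hpO hρ I hKey⟩
  · -- nontrivial
    have hmem : H529.seqOfHom p f ∈ H529.tateEigen (p : O) t' a := by
      refine ⟨?_, ?_, ?_⟩
      · apply H529.PreHom.ext
        intro x
        rw [H529.PreHom.smul_apply, H529.seqOfHom_apply,
          (algebraMap O (FractionRing O)).map_mul]
        have : algebraMap O (FractionRing O) (p : O) * algebraMap O (FractionRing O) x
            * (algebraMap O (FractionRing O) (p : O) ^ (0 + 1))⁻¹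
            = algebraMap O (FractionRing O) x := by
          field_simp
          ring
        rw [this, hf0]
        rfl
      · intro n
        apply H529.PreHom.ext
        intro x
        rw [H529.PreHom.smul_apply, H529.seqOfHom_apply, H529.seqOfHom_apply,
          (algebraMap O (FractionRing O)).map_mul]
        congr 1
        field_simp
        ring
      · intro i n
        apply H529.PreHom.ext
        intro x
        rw [H529.PreHom.smul_apply, H529.seqOfHom_apply]
        simp only [ht', H529.PreHom.post_apply]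
        rw [H529.seqOfHom_apply, hfe, (algebraMap O (FractionRing O)).map_mul, mul_assoc]
    have hne : H529.seqOfHom p f ≠ 0 := by
      intro h0
      apply hf
      apply AddMonoidHom.ext
      intro y
      obtain ⟨x, s, hs, rfl⟩ := IsFractionRing.div_surjective (A := O) y
      have hs0 : s ≠ 0 := nonZeroDivisors.ne_zero hs
      obtain ⟨k, c, hc⟩ := H529.exists_dvd_pow_of_mem_maximalIdeal hpO hs0
      have h1 := congrArg (fun h => H529.PreHom.toHom h (x * c * (p : O))) (congrFun h0 k)
      simp only [H529.seqOfHom_apply] at h1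
      have hsL : algebraMap O (FractionRing O) s ≠ 0 := by
        intro h
        exact hs0 ((IsFractionRing.injective O (FractionRing O)) (by rw [h, map_zero]))
      have h2 : algebraMap O (FractionRing O) (x * c * (p : O))
          * (algebraMap O (FractionRing O) (p : O) ^ (k + 1))⁻¹
          = algebraMap O (FractionRing O) x / algebraMap O (FractionRing O) s := by
        have h3 : algebraMap O (FractionRing O) (p : O) ^ k
            = algebraMap O (FractionRing O) s * algebraMap O (FractionRing O) c := by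
          rw [← map_pow, hc, map_mul]
        rw [pow_succ, h3, (algebraMap O (FractionRing O)).map_mul,
          (algebraMap O (FractionRing O)).map_mul]
        have hcL : algebraMap O (FractionRing O) c ≠ 0 := by
          intro h
          rw [h, mul_zero] at h3
          exact hpL (pow_eq_zero_iff (by
            intro hk
            subst hk
            simp at h3) |>.mp h3)
        field_simp
      rw [h2] at h1
      rw [h1]
      rfl
    refine ⟨⟨⟨H529.seqOfHom p f, hmem⟩, 0, ?_⟩⟩
    intro h
    exact hne (congrArg Subtype.val h)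
  · -- continuity
    intro n
    obtain ⟨L, hL, hLfix⟩ := H529.exists_common_level {x : J | p ^ n • x = 0}
      (H529.finite_torsion_pow J p hfin n) (fun x _ => hsm x)
    refine ⟨L, hL, fun σ hσ m => ?_⟩
    apply H529.tateRep_sub_mem (H529.preHomRep O J) hρ hpO n σ
    intro h hh
    apply H529.PreHom.ext
    intro x
    rw [H529.preHomRep_apply]
    exact hLfix σ hσ _ (hval n h hh x)
  · -- trivial action
    intro σ hσ
    apply H529.tateRep_eq_one
    rintro h ⟨k, hh⟩
    apply H529.PreHom.ext
    intro x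
    rw [H529.preHomRep_apply]
    exact hσ _ ⟨k, hval k h hh x⟩
  · -- quadratic relations
    intro i n σ hσ
    apply H529.tateRep_quadratic
    rintro h ⟨k, hh⟩
    apply H529.PreHom.ext
    intro x
    have h1 := hσ (H529.PreHom.toHom h x) ⟨k, hval k h hh x⟩
    simp only [ht', H529.PreHom.toHom_add, H529.PreHom.toHom_sub, AddMonoidHom.add_apply,
      AddMonoidHom.sub_apply, H529.preHomRep_apply, H529.PreHom.post_apply,
      H529.PreHom.natCast_smul_apply, H529.PreHom.toHom_zero, AddMonoidHom.zero_apply]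
    exact h1

end MainHom

/-! ### GEO-EIG from (K) and the inputs of the adic module layer of row S30 -/

section Chain

open Fermat.Agent.S30.H990 (AdicEigenModule)
open Fermat.Agent.S30.H330

/-- **PIECE EIG-B** from (K) and the inputs (K'), (F), (T) of the adic module layer of row S30
(all three are theorems on main, see `EigBFinal.lean`). -/
theorem geoEigenStatement_of_chain (hKey : KeyStatement)
    (hK : ∀ (N : ℕ) [NeZero N] (p : ℕ) [Fact p.Prime], KummerInjStatement N p)
    (hF : ∀ (N : ℕ) [NeZero N] (p : ℕ) [Fact p.Prime], FinStatement N p)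
    (hT : ∀ (N : ℕ) [NeZero N] (p : ℕ) [Fact p.Prime], TorsionRelations N p) :
    GeoEigenStatement := by
  intro p _ hp2 N _ S hN hNS 𝒪' _ _ _ _ _ _ hp𝒪' χ
  classical
  have hp : p.Prime := Fact.out
  have hpS : p ∈ S := hNS p hp hN.1
  obtain ⟨f, hf0, hf, hfe⟩ :=
    exists_eigenHom_of_inj hpS hNS hp𝒪' χ (hK N p) (parEigenStatement hNS χ)
  have hSm := Fermat.Agent.S30.H990.smoothStatement N
  have hGH := Fermat.Agent.S30.H990.galoisHeckeStatement N
  obtain ⟨M, j1, j2, j3, j4, ρ, hnt, hcont, hunr, hquad, hgeo⟩ :=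
    exists_geo_homEigenmodule (O := 𝒪') hp hp𝒪' (J := ModularCurve.JZero N)
      (fun x => hSm x) (hF N p)
      (ι := {ℓ : Nat.Primes // (ℓ : ℕ) ∉ S})
      (fun i => (ModularCurve.heckeOperatorBar N i.1).toAddMonoidHom)
      (fun i σ x => hGH σ i.1 x)
      (fun i => eigenvalue χ (i.1 : ℕ)) f hf0 hf (fun i x => hfe i.1 i.2 x)
  have hdvd : ∀ q : ℕ, q.Prime → ¬ q ∣ N → q ≠ p → ¬ q ∣ N * p := by
    intro q hq hqN hqp hdiv
    rcases (Nat.Prime.dvd_mul hq).1 hdiv with h1 | h1
    · exact hqN h1
    · exact hqp ((Nat.prime_dvd_prime_iff_eq hq hp).1 h1)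
  exact ⟨{ M := M
           ρ := ρ
           cont := hcont
           unram := fun q hq hqN hqp P hP σ hσ =>
             hunr σ fun x hx => (hT N p q hq (hdvd q hq hqN hqp) P hP).1 σ hσ x hx
           frob := fun ℓ hℓ hℓN hℓS A hA σ hσ => by
             have hℓS' : ℓ ∉ S := fun hmem => hℓS (Finset.mem_coe.mpr hmem)
             have hℓp : ℓ ≠ p := fun h => hℓS' (h ▸ hpS)
             have h1 := hquad ⟨⟨ℓ, hℓ⟩, hℓS'⟩ ℓ σ
               fun x hx => (hT N p ℓ hℓ (hdvd ℓ hℓ hℓN hℓp) A hA).2 σ hσ x hx
             have h2 : eigenvalue χ ℓ = χ (CuspForm.heckeAlgebra.T hℓ hℓN hℓS) := by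
               unfold eigenvalue
               rw [dif_pos ⟨hℓ, hℓN, hℓS⟩]
             rw [← h2]
             exact h1 },
    fun P hP => hgeo _ (hKey p N hp hp2 hN.1 hN.2 P hP)⟩

end Chain

end Fermat.Agent.S33
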