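/-
Row S33 — piece EIG-B, unconditional form (helper409):

  `geoEigenStatement_of_key : KeyStatement → GeoEigenStatement`.

The inputs (K'), (F), (T) of the adic module layer of row S30 are discharged from main exactly as
in `Fermat/Agent/S30.lean` / `S30/Chain/FromT.lean` (helper49).
-/
import Fermat.Agent.S33.EigB
import Fermat.Agent.S30.Chain.FromT
import Fermat.Agent.S30.H694.TorsionRelOfNodes
import Fermat.Agent.S18.Mod.H216.NodeMod
import Fermat.Agent.S18.H438.NodeAlg

set_option autoImplicit false
set_option linter.style.haveILetI false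
set_option linter.overlappingInstances false

noncomputable section

namespace Fermat.Agent.S33

open Fermat.Agent.S30.H330 Fermat.Agent.S30.Chain

/-- **EIG-B**: GEO-EIG from (K). -/
theorem geoEigenStatement_of_key (hKey : KeyStatement) : GeoEigenStatement :=
  geoEigenStatement_of_chain hKey
    (fun N _ p hp =>
      haveI : NeZero p := ⟨hp.out.ne_zero⟩
      kummerInjStatement_of_packages (fun n =>
        haveI : NeZero (p ^ n) := ⟨pow_ne_zero n hp.out.ne_zero⟩
        kumPackage N (p ^ n)))
    (fun N _ p hp =>
      haveI : NeZero p := ⟨hp.out.ne_zero⟩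
      finStatement_of_onto
        (kumPackage_one (fun n =>
          haveI : NeZero (p ^ n) := ⟨pow_ne_zero n hp.out.ne_zero⟩
          kumPackage N (p ^ n))).uniq
        (fun _ hx => Fermat.Agent.S30.H810.exists_isKum_of_torsion N p hx))
    (Fermat.Agent.S30.H694.torsionRelations_of_nodes
      (fun M _ _ _ hℓM A hA => Fermat.Agent.S18.Mod.H216.node_mod M hℓM A hA)
      (fun M => Fermat.Agent.S18.H438.node_alg M))

end Fermat.Agent.S33
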