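/-
Row S33 (ordinary at `p`, `p ‖ N`) — FINAL ASSEMBLY, conditional on the wall at `p` (helper409).

    result_of_key   : KeyStatement → frozen S33
    result_of_ready : H92.OrdFilReadyStatement → OldAugStatement → frozen S33

wired from the landed leaves: TOP (`Chain.result_of_ordEigen`), ALG (`H692.ordEigen_of_geoEigen`,
helper692), EIG-B (`geoEigenStatement_of_key`), KEY + level bridge at `p = 3`
(`H92.keyStatement_of_ready`, helper92/helper270).
-/
import Fermat.Agent.S33.Chain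
import Fermat.Agent.S33.EigBFinal
import Fermat.Agent.S33.H692.OrdEigen
import Fermat.Agent.S33.H92.LevelBridge

set_option autoImplicit false

namespace Fermat.Agent.S33

variable {p : ℕ} {N : ℕ} [NeZero N] {S : Finset ℕ}
  {𝒪 : Type} [CommRing 𝒪] [IsDomain 𝒪] [IsDiscreteValuationRing 𝒪]
  [IsAdicComplete (IsLocalRing.maximalIdeal 𝒪) 𝒪]
  {θ : CuspForm.heckeAlgebra N 2 (↑S : Set ℕ) →+* IsLocalRing.ResidueField 𝒪}
  {T : Type} [CommRing T] [IsLocalRing T] [IsNoetherianRing T]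
  [IsAdicComplete (IsLocalRing.maximalIdeal T) T] [Algebra 𝒪 T] [IsLocalHom (algebraMap 𝒪 T)]
  [Module.Finite 𝒪 T] [Module.Free 𝒪 T]

/-- ORD-EIG from (K). -/
theorem ordEigenStatement_of_key (hKey : KeyStatement) : OrdEigenStatement :=
  Fermat.Agent.S33.H692.ordEigen_of_geoEigen (geoEigenStatement_of_key hKey)

/-- The frozen statement S33 from (K). -/
theorem result_of_key (hKey : KeyStatement)
    [Finite (IsLocalRing.ResidueField 𝒪)] [CharZero 𝒪]
    (hp : p.Prime) (hp2 : p ≠ 2) (hp𝒪 : (p : 𝒪) ∈ IsLocalRing.maximalIdeal 𝒪)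
    (hN : p ∣ N ∧ ¬ p ^ 2 ∣ N)
    (hNS : ∀ q : ℕ, q.Prime → q ∣ N → q ∈ S)
    (H : CuspForm.HeckeGaloisRepDatum N (↑S : Set ℕ) 𝒪 θ T)
    (hres : (GaloisRepAdic.ofResidualGaloisRep H.ρ.residual).IsOrdinaryAt p) :
    H.ρ.IsOrdinaryAt p :=
  result_of_ordEigen (ordEigenStatement_of_key hKey) hp hp2 hp𝒪 hN hNS H hres

/-- The frozen statement S33 from the wall at `p` in READY form and (OLD). -/
theorem result_of_ready (hNEW : Fermat.Agent.S33.H92.OrdFilReadyStatement)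
    (hOLD : OldAugStatement)
    [Finite (IsLocalRing.ResidueField 𝒪)] [CharZero 𝒪]
    (hp : p.Prime) (hp2 : p ≠ 2) (hp𝒪 : (p : 𝒪) ∈ IsLocalRing.maximalIdeal 𝒪)
    (hN : p ∣ N ∧ ¬ p ^ 2 ∣ N)
    (hNS : ∀ q : ℕ, q.Prime → q ∣ N → q ∈ S)
    (H : CuspForm.HeckeGaloisRepDatum N (↑S : Set ℕ) 𝒪 θ T)
    (hres : (GaloisRepAdic.ofResidualGaloisRep H.ρ.residual).IsOrdinaryAt p) :
    H.ρ.IsOrdinaryAt p :=
  result_of_key (Fermat.Agent.S33.H92.keyStatement_of_ready hNEW hOLD) hp hp2 hp𝒪 hN hNS H hres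

end Fermat.Agent.S33
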